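import Fermat.Agent.PisotCriterion.Converse
import Mathlib.NumberTheory.NumberField.InfinitePlace.Embeddings

/-!
# Periodic beta-expansions

For a Pisot number `β` every point of `ℚ(β) ∩ [0, 1)` has an eventually periodic greedy expansion
in base `β`: its orbit under `x ↦ fract (β x)` consists of algebraic numbers of bounded denominator
that are bounded in every embedding (Bertrand, Schmidt). Conversely, if all rationals in `[0, 1)`
have eventually periodic expansions then `β` is an algebraic integer with all other conjugates in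
the closed unit disc (Schmidt): compare the expansions of rationals tending to `1 / β` from above.
-/

set_option autoImplicit false

noncomputable section

open Filter Topology Finset Polynomial
open scoped IntermediateField

namespace FA.BetaExpansion

/-- The beta transformation. -/
def betaTransform (β x : ℝ) : ℝ := Int.fract (β * x)

/-- The orbit of a point. -/
def orbit (β x : ℝ) (n : ℕ) : ℝ := (betaTransform β)^[n] x

/-- The digits of the greedy expansion `x = ∑ digit n / β ^ (n + 1)`. -/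
def digit (β x : ℝ) (n : ℕ) : ℤ := ⌊β * orbit β x n⌋

/-- The greedy expansion is eventually periodic. -/
def HasPeriodicExpansion (β x : ℝ) : Prop :=
  ∃ a p : ℕ, 0 < p ∧ ∀ n, a ≤ n → digit β x (n + p) = digit β x n

theorem orbit_zero (β x : ℝ) : orbit β x 0 = x := rfl

theorem orbit_succ (β x : ℝ) (n : ℕ) :
    orbit β x (n + 1) = β * orbit β x n - digit β x n := by
  rw [orbit, Function.iterate_succ_apply', betaTransform, digit, Int.fract]
  rfl

theorem orbit_mem {β x : ℝ} (hx : x ∈ Set.Ico (0 : ℝ) 1) : ∀ n, orbit β x n ∈ Set.Ico (0 : ℝ) 1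
  | 0 => hx
  | n + 1 => by
    rw [orbit, Function.iterate_succ_apply', betaTransform]
    exact ⟨Int.fract_nonneg _, Int.fract_lt_one _⟩

theorem abs_digit_le {β x : ℝ} (hβ : 1 < β) (hx : x ∈ Set.Ico (0 : ℝ) 1) (n : ℕ) :
    |(digit β x n : ℝ)| ≤ β + 1 := by
  obtain ⟨h0, h1⟩ := orbit_mem (β := β) hx n
  have h2 : β * orbit β x n ≤ β := mul_le_of_le_one_right (by linarith) h1.le
  have h3 : 0 ≤ β * orbit β x n := by positivity
  rw [digit, abs_le]
  constructor <;>
    linarith [Int.floor_le (β * orbit β x n), Int.sub_one_lt_floor (β * orbit β x n)]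

theorem hasPeriodicExpansion_of_orbit_eq {β x : ℝ} {a b : ℕ} (hab : a < b)
    (h : orbit β x a = orbit β x b) : HasPeriodicExpansion β x := by
  refine ⟨a, b - a, Nat.sub_pos_of_lt hab, fun n hn => ?_⟩
  obtain ⟨i, rfl⟩ := Nat.exists_eq_add_of_le hn
  rw [digit, digit]
  congr 2
  simp only [orbit] at h ⊢
  rw [show a + i + (b - a) = i + b by omega, show a + i = i + a by omega,
    Function.iterate_add_apply, Function.iterate_add_apply, h]

/-- The greedy digits expand `x`. -/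
theorem hasSum_digit {β x : ℝ} (hβ : 1 < β) (hx : x ∈ Set.Ico (0 : ℝ) 1) :
    HasSum (fun n => (digit β x n : ℝ) / β ^ (n + 1)) x := by
  have h0 : 0 < β := zero_lt_one.trans hβ
  have hsum : ∀ n, ∑ i ∈ range n, (digit β x i : ℝ) / β ^ (i + 1) = x - orbit β x n / β ^ n :=
    fun n => by
      induction n with
      | zero => simp [orbit_zero]
      | succ n ih =>
        rw [sum_range_succ, ih, orbit_succ]
        field_simp
        ring
  have hnn : ∀ i, (0 : ℝ) ≤ digit β x i := fun i =>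
    Int.cast_nonneg (Int.floor_nonneg.2 (mul_nonneg h0.le (orbit_mem hx i).1))
  rw [hasSum_iff_tendsto_nat_of_nonneg fun i => div_nonneg (hnn i) (pow_nonneg h0.le _)]
  simp only [hsum]
  have h2 : Tendsto (fun n => orbit β x n / β ^ n) atTop (𝓝 0) := by
    refine squeeze_zero (fun n => div_nonneg (orbit_mem hx n).1 (pow_nonneg h0.le n)) (fun n => ?_)
      (tendsto_pow_atTop_nhds_zero_of_lt_one (inv_pos.2 h0).le (inv_lt_one_of_one_lt₀ hβ))
    rw [inv_pow, ← one_div]
    gcongr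
    exact (orbit_mem hx n).2.le
  simpa using h2.const_sub x

/-- **The theorem of Bertrand and Schmidt.** -/
theorem hasPeriodicExpansion_of_isPisot {β : ℝ} (hβ : FA.PisotCriterion.IsPisot β) {x : ℝ}
    (hx : x ∈ Set.Ico (0 : ℝ) 1) (hxK : x ∈ ℚ⟮β⟯) : HasPeriodicExpansion β x := by
  classical
  obtain ⟨h1, hint, hconj⟩ := hβ
  have hb : IsIntegral ℚ β := hint.tower_top
  have : FiniteDimensional ℚ ℚ⟮β⟯ := IntermediateField.adjoin.finiteDimensional hb
  have : NumberField ℚ⟮β⟯ := ⟨⟩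
  set g : ℚ⟮β⟯ := IntermediateField.AdjoinSimple.gen ℚ β with hg
  have hgi : IsIntegral ℤ g := (isIntegral_algebraMap_iff (algebraMap ℚ⟮β⟯ ℝ).injective).1 hint
  obtain ⟨Y, hY0, hYs⟩ : ∃ Y : ℕ → ℚ⟮β⟯, ((Y 0 : ℚ⟮β⟯) : ℝ) = x ∧
      ∀ n, Y (n + 1) = g * Y n - (digit β x n : ℚ⟮β⟯) :=
    ⟨fun n => Nat.rec ⟨x, hxK⟩ (fun i v => g * v - (digit β x i : ℚ⟮β⟯)) n, rfl, fun _ => rfl⟩
  have hXval : ∀ n, ((Y n : ℚ⟮β⟯) : ℝ) = orbit β x n := fun n => by
    induction n with
    | zero => exact hY0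
    | succ n ih =>
      rw [orbit_succ, hYs]
      push_cast
      rw [ih]
      rfl
  obtain ⟨q, hq, hqi⟩ :=
    ((IsFractionRing.isAlgebraic_iff ℤ ℚ ℚ⟮β⟯).2
      (Algebra.IsAlgebraic.isAlgebraic (R := ℚ) (Y 0))).exists_integral_multiple
  rw [zsmul_eq_mul] at hqi
  have hXi : ∀ n, IsIntegral ℤ ((q : ℚ⟮β⟯) * Y n) := fun n => by
    induction n with
    | zero => exact hqi
    | succ n ih =>
      rw [hYs, mul_sub, mul_left_comm]
      exact (hgi.mul ih).sub (((isIntegral_algebraMap (x := q)).mul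
        (isIntegral_algebraMap (x := digit β x n))))
  have hbound : ∀ φ : ℚ⟮β⟯ →+* ℂ, ∃ M : ℝ, ∀ n, ‖φ (Y n)‖ ≤ M := fun φ => by
    have hroot : aeval (φ g) (minpoly ℤ β) = 0 := by
      have h0 : aeval g (minpoly ℤ β) = 0 := by
        refine (algebraMap ℚ⟮β⟯ ℝ).injective ?_
        rw [map_zero, ← aeval_algebraMap_apply]
        exact minpoly.aeval ℤ β
      rw [show φ g = φ.toIntAlgHom g from rfl, aeval_algHom_apply, h0, map_zero]
    rcases eq_or_ne (φ g) (β : ℂ) with he | he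
    · refine ⟨1, fun n => ?_⟩
      have e : φ.toRatAlgHom = (Complex.ofRealAm.restrictScalars ℚ).comp ℚ⟮β⟯.val := by
        refine (IntermediateField.adjoin.powerBasis hb).algHom_ext ?_
        rw [IntermediateField.adjoin.powerBasis_gen]
        exact he
      rw [show φ (Y n) = (((Y n : ℚ⟮β⟯) : ℝ) : ℂ) from DFunLike.congr_fun e (Y n)]
      obtain ⟨a1, a2⟩ := orbit_mem (β := β) hx n
      rw [Complex.norm_real, hXval, Real.norm_of_nonneg a1]
      exact a2.le
    · have hlt := hconj _ hroot he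
      refine ⟨max ‖φ (Y 0)‖ ((β + 1) / (1 - ‖φ g‖)), fun n => ?_⟩
      induction n with
      | zero => exact le_max_left _ _
      | succ n ih =>
        rw [hYs, map_sub, map_mul, map_intCast]
        refine (norm_sub_le _ _).trans ?_
        rw [norm_mul, Complex.norm_intCast]
        have h2 := (div_le_iff₀ (sub_pos.2 hlt)).1
          (le_max_right ‖φ (Y 0)‖ ((β + 1) / (1 - ‖φ g‖)))
        have h3 := mul_le_mul_of_nonneg_left ih (norm_nonneg (φ g))
        linarith [abs_digit_le h1 hx n]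
  choose M hM using hbound
  obtain ⟨a, b, hab, he⟩ : ∃ a b, a < b ∧ (q : ℚ⟮β⟯) * Y a = (q : ℚ⟮β⟯) * Y b := by
    have hfin := NumberField.Embeddings.finite_of_norm_le ℚ⟮β⟯ ℂ
      (∑ φ : ℚ⟮β⟯ →+* ℂ, |(q : ℝ)| * max (M φ) 0)
    have hmaps : Set.MapsTo (fun n => (q : ℚ⟮β⟯) * Y n) Set.univ
        {z : ℚ⟮β⟯ | IsIntegral ℤ z ∧ ∀ φ : ℚ⟮β⟯ →+* ℂ,
          ‖φ z‖ ≤ ∑ ψ : ℚ⟮β⟯ →+* ℂ, |(q : ℝ)| * max (M ψ) 0} := fun n _ => by
      refine ⟨hXi n, fun φ => ?_⟩
      rw [map_mul, map_intCast, norm_mul, Complex.norm_intCast]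
      exact (mul_le_mul_of_nonneg_left ((hM φ n).trans (le_max_left _ _)) (abs_nonneg _)).trans
        (single_le_sum (f := fun ψ => |(q : ℝ)| * max (M ψ) 0) (fun ψ _ => by positivity)
          (mem_univ φ))
    obtain ⟨a, -, b, -, hne, he⟩ :=
      Set.infinite_univ.exists_ne_map_eq_of_mapsTo hmaps hfin
    rcases hne.lt_or_gt with hlt | hlt
    · exact ⟨a, b, hlt, he⟩
    · exact ⟨b, a, hlt, he.symm⟩
  refine hasPeriodicExpansion_of_orbit_eq hab ?_
  rw [← hXval, ← hXval, mul_left_cancel₀ (Int.cast_ne_zero.2 hq) he]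

/-- The polynomial `∑ i < n, digit i * X ^ (n - 1 - i)`. -/
def digitPoly (β x : ℝ) : ℕ → ℤ[X]
  | 0 => 0
  | n + 1 => X * digitPoly β x n + C (digit β x n)

theorem natDegree_digitPoly_lt (β x : ℝ) : ∀ n, (digitPoly β x n).degree < (n : ℕ)
  | 0 => by simp [digitPoly]
  | n + 1 => by
    refine (degree_add_le _ _).trans_lt (max_lt ?_ (degree_C_le.trans_lt ?_))
    · refine (degree_mul_le _ _).trans_lt ?_
      rw [degree_X]
      rcases eq_or_ne (digitPoly β x n) 0 with h0 | h0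
      · rw [h0, degree_zero, WithBot.add_bot]
        exact WithBot.bot_lt_coe _
      · have h := natDegree_digitPoly_lt β x n
        rw [degree_eq_natDegree h0] at h ⊢
        norm_cast at h ⊢
        omega
    · exact_mod_cast Nat.succ_pos n

theorem aeval_digitPoly (β x : ℝ) : ∀ n, aeval β (digitPoly β x n) = β ^ n * x - orbit β x n
  | 0 => by simp [digitPoly, orbit_zero]
  | n + 1 => by
    rw [digitPoly, map_add, map_mul, aeval_X, aeval_C, aeval_digitPoly β x n, orbit_succ,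
      algebraMap_int_eq, eq_intCast]
    ring

/-- The expansion read at `w`. -/
def valueAt (β x : ℝ) (w : ℂ) (a : ℕ) : ℂ := ∑' i, (digit β x (a + i) : ℂ) * w ^ (i + 1)

theorem summable_valueAt {β x : ℝ} (hβ : 1 < β) (hx : x ∈ Set.Ico (0 : ℝ) 1) {w : ℂ}
    (hw : ‖w‖ < 1) (a : ℕ) : Summable fun i => (digit β x (a + i) : ℂ) * w ^ (i + 1) := by
  refine Summable.of_norm_bounded
    ((summable_geometric_of_lt_one (norm_nonneg w) hw).mul_left ((β + 1) * ‖w‖)) fun i => ?_
  rw [norm_mul, Complex.norm_intCast, norm_pow, pow_succ', ← mul_assoc]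
  gcongr
  exact abs_digit_le hβ hx _

theorem valueAt_succ {β x : ℝ} (hβ : 1 < β) (hx : x ∈ Set.Ico (0 : ℝ) 1) {z : ℂ}
    (hz : 1 < ‖z‖) (a : ℕ) :
    z * valueAt β x z⁻¹ a = digit β x a + valueAt β x z⁻¹ (a + 1) := by
  have hw : ‖z⁻¹‖ < 1 := by rw [norm_inv]; exact inv_lt_one_of_one_lt₀ hz
  have hz0 : z ≠ 0 := fun e => by simp [e] at hz; linarith
  rw [valueAt, (summable_valueAt hβ hx hw a).tsum_eq_zero_add, valueAt, mul_add, ← tsum_mul_left]
  simp only [add_zero, zero_add, pow_one]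
  rw [mul_left_comm, mul_inv_cancel₀ hz0, mul_one]
  refine congrArg _ (tsum_congr fun i => ?_)
  rw [show a + (i + 1) = a + 1 + i by omega, pow_succ' _ (i + 1), mul_left_comm, ← mul_assoc z,
    mul_inv_cancel₀ hz0, one_mul]

theorem valueAt_eq {β x : ℝ} (hβ : 1 < β) (hx : x ∈ Set.Ico (0 : ℝ) 1) {z : ℂ}
    (hz : 1 < ‖z‖) : ∀ a, valueAt β x z⁻¹ a =
      z ^ a * valueAt β x z⁻¹ 0 - aeval z (digitPoly β x a)
  | 0 => by simp [digitPoly]
  | a + 1 => by
    have h := valueAt_succ hβ hx hz a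
    rw [valueAt_eq hβ hx hz a] at h
    rw [digitPoly, map_add, map_mul, aeval_X, aeval_C, algebraMap_int_eq, eq_intCast]
    linear_combination -h

theorem orbit_eq_of_periodic {β x : ℝ} (hβ : 1 < β) (hx : x ∈ Set.Ico (0 : ℝ) 1) {a p : ℕ}
    (h : ∀ n, a ≤ n → digit β x (n + p) = digit β x n) :
    orbit β x (a + p) = orbit β x a := by
  have hD : ∀ i, orbit β x (a + p + i) - orbit β x (a + i) =
      β ^ i * (orbit β x (a + p) - orbit β x a) := fun i => by
    induction i with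
    | zero => simp
    | succ i ih =>
      rw [← add_assoc, ← add_assoc, orbit_succ, orbit_succ,
        show a + p + i = a + i + p by omega, h (a + i) (Nat.le_add_right _ _)]
      rw [show a + p + i = a + i + p by omega] at ih
      rw [pow_succ]
      linear_combination β * ih
  by_contra hne
  have hpos : 0 < |orbit β x (a + p) - orbit β x a| := abs_pos.2 (sub_ne_zero.2 hne)
  obtain ⟨i, hi⟩ := pow_unbounded_of_one_lt (1 / |orbit β x (a + p) - orbit β x a|) hβ
  rw [div_lt_iff₀ hpos] at hi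
  obtain ⟨p1, p2⟩ := orbit_mem (β := β) hx (a + p + i)
  obtain ⟨q1, q2⟩ := orbit_mem (β := β) hx (a + i)
  have h3 : |orbit β x (a + p + i) - orbit β x (a + i)| < 1 :=
    abs_lt.2 ⟨by linarith, by linarith⟩
  rw [hD, abs_mul, abs_of_pos (pow_pos (zero_lt_one.trans hβ) i)] at h3
  linarith

theorem isIntegral_of_periodic_half {β : ℝ} (hβ : 1 < β)
    (h : HasPeriodicExpansion β (1 / 2)) : IsIntegral ℤ β := by
  obtain ⟨a, p, hp, hper⟩ := h
  have hx : (1 / 2 : ℝ) ∈ Set.Ico (0 : ℝ) 1 := ⟨by norm_num, by norm_num⟩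
  have ho := orbit_eq_of_periodic hβ hx hper
  set P := digitPoly β (1 / 2) with hP
  refine ⟨X ^ (a + p) - (X ^ a + C 2 * (P (a + p) - P a)), ?_, ?_⟩
  · refine monic_X_pow_sub ((degree_add_le _ _).trans_lt (max_lt ?_ ?_))
    · rw [degree_X_pow]
      exact_mod_cast Nat.lt_add_of_pos_right hp
    · refine (degree_mul_le _ _).trans_lt ?_
      rw [degree_C two_ne_zero, zero_add]
      refine (degree_sub_le _ _).trans_lt (max_lt (natDegree_digitPoly_lt _ _ _) ?_)
      exact (natDegree_digitPoly_lt _ _ _).trans_le (by exact_mod_cast Nat.le_add_right a p)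
  · change aeval β (X ^ (a + p) - (X ^ a + C 2 * (P (a + p) - P a))) = 0
    rw [map_sub, map_add, map_mul, map_sub, map_pow, map_pow, aeval_X, aeval_C,
      aeval_digitPoly, aeval_digitPoly, ho, algebraMap_int_eq, eq_intCast]
    push_cast
    ring

theorem valueAt_eq_of_periodic {β : ℝ} (hβ : 1 < β) {r : ℚ} (hr : (r : ℝ) ∈ Set.Ico (0 : ℝ) 1)
    (hper : HasPeriodicExpansion β r) (hint : IsIntegral ℤ β) {z : ℂ}
    (hroot : aeval z (minpoly ℤ β) = 0) (hz : 1 < ‖z‖) : valueAt β r z⁻¹ 0 = (r : ℂ) := by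
  obtain ⟨a, p, hp, hd⟩ := hper
  have ho := orbit_eq_of_periodic hβ hr hd
  set P := digitPoly β (r : ℝ) with hP
  set Q : ℚ[X] := C r * (X ^ (a + p) - X ^ a) - (P (a + p) - P a).map (algebraMap ℤ ℚ) with hQ
  have hQβ : aeval β Q = 0 := by
    rw [hQ, map_sub, map_mul, aeval_C, map_sub, map_pow, map_pow, aeval_X, aeval_map_algebraMap,
      map_sub, aeval_digitPoly, aeval_digitPoly, ho, eq_ratCast]
    ring
  have hQz : aeval z Q = 0 := by
    obtain ⟨R, hR⟩ := minpoly.dvd ℚ β hQβ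
    rw [hR, map_mul, minpoly.isIntegrallyClosed_eq_field_fractions' ℚ hint, aeval_map_algebraMap,
      hroot, zero_mul]
  rw [hQ, map_sub, map_mul, aeval_C, map_sub, map_pow, map_pow, aeval_X, aeval_map_algebraMap,
    map_sub, eq_ratCast] at hQz
  have hshift : valueAt β r z⁻¹ (a + p) = valueAt β r z⁻¹ a := tsum_congr fun i => by
    rw [show a + p + i = a + i + p by omega, hd _ (Nat.le_add_right _ _)]
  rw [valueAt_eq hβ hr hz, valueAt_eq hβ hr hz a] at hshift
  have hne : z ^ (a + p) - z ^ a ≠ 0 := by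
    rw [sub_ne_zero]
    intro e
    have h2 := congrArg norm e
    rw [norm_pow, norm_pow] at h2
    exact absurd h2 (pow_lt_pow_right₀ hz (Nat.lt_add_of_pos_right hp)).ne'
  refine mul_left_cancel₀ hne ?_
  linear_combination hshift - hQz

/-- **Schmidt's converse.** -/
theorem norm_conj_le_one_of_periodic {β : ℝ} (hβ : 1 < β)
    (h : ∀ r : ℚ, 0 ≤ r → r < 1 → HasPeriodicExpansion β r) :
    IsIntegral ℤ β ∧ ∀ z : ℂ, aeval z (minpoly ℤ β) = 0 → z ≠ (β : ℂ) → ‖z‖ ≤ 1 := by
  have hint : IsIntegral ℤ β := isIntegral_of_periodic_half hβ (by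
    simpa using h (1 / 2) (by norm_num) (by norm_num))
  refine ⟨hint, fun z hroot hne => ?_⟩
  by_contra hz
  rw [not_le] at hz
  have h0 : 0 < β := zero_lt_one.trans hβ
  have hβinv : β⁻¹ < 1 := inv_lt_one_of_one_lt₀ hβ
  have hr : ∀ k : ℕ, ∃ r : ℚ,
      β⁻¹ < (r : ℝ) ∧ (r : ℝ) < min 1 (β⁻¹ + (β⁻¹) ^ (k + 1)) := fun k =>
    exists_rat_btwn (lt_min hβinv (by linarith [pow_pos (inv_pos.2 h0) (k + 1)]))
  choose r hr1 hr2 using hr
  have hmem : ∀ k, (r k : ℝ) ∈ Set.Ico (0 : ℝ) 1 := fun k =>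
    ⟨(inv_pos.2 h0).le.trans (hr1 k).le, (hr2 k).trans_le (min_le_left _ _)⟩
  have hdig : ∀ k, digit β (r k) 0 = 1 ∧ ∀ j, 1 ≤ j → j ≤ k → digit β (r k) j = 0 := fun k => by
    set δ : ℝ := β * r k - 1 with hδ
    have hδ0 : 0 < δ := by
      have := mul_lt_mul_of_pos_left (hr1 k) h0
      rw [mul_inv_cancel₀ h0.ne'] at this
      linarith
    have hδk : δ * β ^ k < 1 := by
      have h2 := mul_lt_mul_of_pos_left ((hr2 k).trans_le (min_le_right _ _)) h0
      rw [mul_add, mul_inv_cancel₀ h0.ne', pow_succ', ← mul_assoc, mul_inv_cancel₀ h0.ne',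
        one_mul, inv_pow] at h2
      have h3 : δ < (β ^ k)⁻¹ := by linarith
      rwa [← one_div, lt_div_iff₀ (pow_pos h0 k)] at h3
    have hδ1 : δ < 1 := by nlinarith [one_le_pow₀ hβ.le (n := k)]
    have d0 : digit β (r k) 0 = 1 := by
      rw [digit, orbit_zero, Int.floor_eq_iff]
      push_cast
      constructor <;> linarith
    have key : ∀ j, j ≤ k → orbit β (r k) (j + 1) = δ * β ^ j := by
      intro j
      induction j with
      | zero => intro _; rw [orbit_succ, d0, orbit_zero, hδ]; push_cast; ring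
      | succ j ih =>
        intro hj
        have h4 : digit β (r k) (j + 1) = 0 := by
          rw [digit, ih (by omega), Int.floor_eq_zero_iff]
          refine ⟨by positivity, lt_of_le_of_lt ?_ hδk⟩
          rw [mul_left_comm, ← pow_succ']
          gcongr
          · exact hβ.le
        rw [orbit_succ, h4, ih (by omega), pow_succ]
        push_cast
        ring
    refine ⟨d0, fun j hj1 hjk => ?_⟩
    rw [digit, show j = j - 1 + 1 by omega, key _ (by omega), Int.floor_eq_zero_iff]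
    refine ⟨by positivity, lt_of_le_of_lt ?_ hδk⟩
    rw [mul_left_comm, ← pow_succ']
    gcongr
    · exact hβ.le
    · omega
  have hw : ‖z⁻¹‖ < 1 := by rw [norm_inv]; exact inv_lt_one_of_one_lt₀ hz
  have hclose : ∀ k, ‖(r k : ℂ) - z⁻¹‖ ≤ (β + 1) * ‖z⁻¹‖ ^ (k + 1) / (1 - ‖z⁻¹‖) := fun k => by
    have h0r : (0 : ℚ) ≤ r k := by exact_mod_cast (hmem k).1
    have h1r : r k < 1 := by exact_mod_cast (hmem k).2
    have hv := valueAt_eq_of_periodic hβ (hmem k) (h _ h0r h1r) hint hroot hz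
    have hs := summable_valueAt hβ (hmem k) hw 0
    have hsplit := hs.sum_add_tsum_nat_add (k + 1)
    have hhead : ∑ i ∈ range (k + 1), (digit β (r k) (0 + i) : ℂ) * z⁻¹ ^ (i + 1) = z⁻¹ := by
      rw [sum_eq_single 0 (fun j hj hj0 => ?_) (fun hn => absurd (mem_range.2 (by omega)) hn)]
      · simp [(hdig k).1]
      · have hj' := mem_range.1 hj
        simp [(hdig k).2 j (by omega) (by omega)]
    rw [hhead] at hsplit
    rw [← hv, valueAt, ← hsplit, add_sub_cancel_left]
    have hb : HasSum (fun i : ℕ => (β + 1) * ‖z⁻¹‖ ^ (k + 1) * ‖z⁻¹‖ ^ i)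
        ((β + 1) * ‖z⁻¹‖ ^ (k + 1) * (1 - ‖z⁻¹‖)⁻¹) :=
      (hasSum_geometric_of_lt_one (norm_nonneg _) hw).mul_left _
    rw [div_eq_mul_inv]
    refine tsum_of_norm_bounded hb fun i => ?_
    rw [norm_mul, Complex.norm_intCast, norm_pow, mul_assoc, ← pow_add]
    refine mul_le_mul (abs_digit_le hβ (hmem k) _) ?_ (by positivity) (by linarith)
    exact pow_le_pow_of_le_one (norm_nonneg _) hw.le (by omega)
  have hlim1 : Tendsto (fun k => (r k : ℂ)) atTop (𝓝 z⁻¹) := by
    refine tendsto_iff_norm_sub_tendsto_zero.2 (squeeze_zero (fun _ => norm_nonneg _) hclose ?_)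
    simpa using ((((tendsto_pow_atTop_nhds_zero_of_lt_one (norm_nonneg _) hw).comp
      (tendsto_add_atTop_nat 1)).const_mul (β + 1)).div_const (1 - ‖z⁻¹‖))
  have hlim2 : Tendsto (fun k => (r k : ℝ)) atTop (𝓝 β⁻¹) := by
    refine tendsto_of_tendsto_of_tendsto_of_le_of_le tendsto_const_nhds ?_ (fun k => (hr1 k).le)
      (fun k => ((hr2 k).trans_le (min_le_right _ _)).le)
    simpa using ((tendsto_pow_atTop_nhds_zero_of_lt_one (inv_pos.2 h0).le hβinv).comp
      (tendsto_add_atTop_nat 1)).const_add β⁻¹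
  have e := tendsto_nhds_unique hlim1
    (((Complex.continuous_ofReal.tendsto _).comp hlim2).congr fun k => by simp)
  rw [Complex.ofReal_inv, inv_inj] at e
  exact hne e

end FA.BetaExpansion
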